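import Fermat.Agent.S19.I.Defs

/-!
# S19 / E3 : a finite set of places lies in the bad locus of the chart `s = 1/m(x)`, `m = T^(ℓ^r) - T + 1`
-/

set_option autoImplicit false

noncomputable section

namespace Fermat.Agent.S19.E

open AlgebraicCurve Polynomial Fermat.Agent.S24.FF Fermat.Agent.S27 Fermat.Agent.S19.R

/-- `m_r = T^(ℓ^r) - T + 1`. -/
def mPol (ℓ r : ℕ) : ℤ[X] := X ^ (ℓ ^ r) - X + 1

theorem mPol_monic {ℓ r : ℕ} (hℓ : 1 < ℓ) (hr : 0 < r) : (mPol ℓ r).Monic := by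
  sorry

theorem mPol_natDegree {ℓ r : ℕ} (hℓ : 1 < ℓ) (hr : 0 < r) : (mPol ℓ r).natDegree = ℓ ^ r := by
  sorry

/-- the residue field of `A` is algebraic over `𝔽_ℓ`.  PROOF. `c` is a root of a primitive `P ∈ ℤ[X]`
(`IsAlgebraic ℚ c`, clear denominators, divide by the content: `IsLocalization.integerNormalization`,
`Polynomial.primPart`), so `c̄` is a root of `P̄ ≠ 0` over `ZMod ℓ`, i.e. `c̄` is algebraic over the finite field, it lies in
a finite subfield with `ℓ^r` elements (`FiniteField.pow_card`).  (Look first at `GAL/CTV/Small.lean` `perfectField_kA`,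
`Lib/FrobeniusExists.lean`, `GR/FormalES.lean` `charP_residueField`: something close may exist.) -/
theorem exists_pow_sub_lt {ℓ : ℕ} (hℓ : ℓ.Prime) {A : ValuationSubring Qb} (hA : A.LiesOverPrime ℓ)
    (c : Qb) (hc : c ∈ A) : ∃ r : ℕ, 0 < r ∧ A.valuation (c ^ (ℓ ^ r) - c) < 1 := by
  sorry

/-- if `c^(ℓ^r) ≡ c` then `c^(ℓ^(r r')) ≡ c`. -/
theorem pow_sub_lt_of_dvd {ℓ : ℕ} {A : ValuationSubring Qb} {c : Qb} (hc : c ∈ A) {r r' : ℕ}
    (h : A.valuation (c ^ (ℓ ^ r) - c) < 1) (hr : r ∣ r') (hr' : 0 < r') :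
    A.valuation (c ^ (ℓ ^ r') - c) < 1 := by
  sorry

variable {F : Type} {Γ₀ : Type*} [Field F] [Algebra Qb F] [IsFF1 Qb F]
  [LinearOrderedCommGroupWithZero Γ₀]

/-- (E3).  PROOF.  `q := (mPol ℓ r).map (Int.castRingHom Qb)`, `s = (aeval x q)⁻¹`.  For `y ∈ S0`:
(a) `y.ord x < 0`: `y.ord (aeval x q) = ℓ^r * y.ord x < 0` (leading term dominates), `0 < y.ord s`, `val y s = 0`.
(b) `0 ≤ y.ord x`, `c := val y x ∉ A`: `|c| > 1`, `|c^(ℓ^r) - c + 1| = |c|^(ℓ^r) > 1`; `val y (aeval x q) = eval c q ≠ 0`, so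
`y.ord s = 0`, `val y s = (eval c q)⁻¹` (`val_inv`), `|val y s| < 1`.
(c) `c ∈ A`: choose `r_y` by `exists_pow_sub_lt`; `r := ∏ r_y` (`pow_sub_lt_of_dvd`); `|eval c q - 1| < 1`, so `|eval c q| = 1` and
`|val y s - 1| = |1 - eval c q| / |eval c q| < 1`.
Comparison of `vK v` with `A.valuation`: only through `hvA` (`vK v a ≤ 1 ↔ a ∈ A`, hence `vK v a < 1 ↔ a = 0 ∨ a⁻¹ ∉ A`). -/
theorem exists_bad_chart {ℓ : ℕ} (hℓ : ℓ.Prime) {A : ValuationSubring Qb} (hA : A.LiesOverPrime ℓ)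
    {v : Valuation F Γ₀} (hvA : ∀ a : Qb, v (algebraMap Qb F a) ≤ 1 ↔ a ∈ A) (x : F)
    (S0 : Finset (Place Qb F)) :
    ∃ r : ℕ, 0 < r ∧
      ∀ y ∈ S0, Bad v (aeval x ((mPol ℓ r).map (Int.castRingHom Qb)))⁻¹ y := by
  sorry

end Fermat.Agent.S19.E
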