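import Fermat.Agent.S19.B.Export
import Fermat.Agent.S37.Defs

/-!
# S19 / E0 : the cusp `∞` is a Galois fixed place of `FL ℚ̄ M`, and a pole of `x`
-/

set_option autoImplicit false

noncomputable section

namespace Fermat.Agent.S19.E

open AlgebraicCurve ModularCurve Fermat.Agent.S24.FF Fermat.Agent.S27 Fermat.Agent.GAL
  Fermat.Agent.GAL.KLC Fermat.Agent.S19.B

variable (M : ℕ) [NeZero M]

/-- (E0).  PROOF. `oo := S37.Pinf M` (`S37.Pinf_ord : (Pinf M).ord x = (x : LaurentSeries Kb).order`; `FN M` and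
`FL Qb M` are the same type).  `(galM M σ • oo).ord f = oo.ord (galM M σ⁻¹ • f)` (`SemilinearAut.ord_smul`) `= order of
coeffMap σ⁻¹ f` (`coe_arithmeticGalois_smul`) `= order f`; two places with the same `ord` are equal (`Place.ext` + membership in
the valuation ring `↔ 0 ≤ ord`, cf. `mem_toValuationSubring_of_ord_nonneg`, `ord_nonneg_of_mem`).
`order (xF M) = -(mX M) < 0` (`KLC/XSeries.lean` `order_xR`, `mX_pos`). -/
theorem exists_cusp : ∃ oo : Place Qb (FL Qb M),
    (∀ σ : S19.GQ, galM M σ • oo = oo) ∧ oo.ord (xF M) < 0 := by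
  sorry

end Fermat.Agent.S19.E
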