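import Fermat.Agent.S19.I.Defs
import Fermat.Agent.GAL.FF.DegPrincipal

/-!
# S19 / E4 : a finite, nonempty, Galois stable set of places in the good locus; the golden ratio
-/

set_option autoImplicit false

noncomputable section

namespace Fermat.Agent.S19.E

open AlgebraicCurve Polynomial Fermat.Agent.S24.FF Fermat.Agent.S27 Fermat.Agent.GAL.FF
  Fermat.Agent.S19.R Fermat.Agent.S19.I

variable {F : Type} {Γ₀ : Type*} [Field F] [Algebra Qb F] [IsFF1 Qb F]
  [LinearOrderedCommGroupWithZero Γ₀]

/-- `c (c - 1) = 1` : `c` and `c - 1` are units of every valuation ring.  (`c` is integral over `ℤ`, valuation rings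
are integrally closed; or directly: if `|c| > 1` then `|c - 1| = |c|` and `|c (c-1)| > 1`; if `|c| < 1` then `|c - 1| = 1`
and `|c (c-1)| < 1`; so `|c| = 1`, hence `|c - 1| = 1`.) -/
theorem vK_golden {v : Valuation F Γ₀} {c : Qb} (hc : c * (c - 1) = 1) :
    vK v c = 1 ∧ vK v (c - 1) = 1 := by
  sorry

theorem exists_golden (v : Valuation F Γ₀) : ∃ c : Qb, vK v c = 1 ∧ vK v (c - 1) = 1 := by
  sorry

/-- (E4).  PROOF.  `h := s^2 - s - 1 ≠ 0` is not constant (`s` transcendental), so it has a zero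
(`FF`: a nonconstant function has a zero, e.g. `exists_place_ord_pos` / `degree_divOf` + pole).
`aa := (divOf Qb h).support.filter (fun y => 0 < y.ord h)`; stable by `SemilinearAut.ord_smul` since `gal σ • h = h`.
For `y ∈ aa`: `0 ≤ y.ord s` (otherwise `y.ord h = 2 * y.ord s < 0`), `c := val y s` satisfies `c^2 - c - 1 = val y h = 0`;
`vK_golden`. -/
theorem exists_good_places {v : Valuation F Γ₀} (gal : GQ →* SemilinearAut Qb F) (s : F)
    (hs : Transcendental Qb s) (hsr : ∀ σ : GQ, gal σ • s = s) :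
    ∃ aa : Finset (Place Qb F), aa.Nonempty ∧ (∀ (σ : GQ), ∀ y ∈ aa, gal σ • y ∈ aa) ∧
      ∀ y ∈ aa, Good v s y := by
  sorry

end Fermat.Agent.S19.E
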