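import Fermat.Agent.S19.I.Defs
import Fermat.Agent.GAL.FF.DegPrincipal

/-!
# S19 / E1 : every finite set of places lies in a finite Galois stable set of places
-/

set_option autoImplicit false

noncomputable section

namespace Fermat.Agent.S19.E

open AlgebraicCurve Polynomial Fermat.Agent.S24.FF Fermat.Agent.S27 Fermat.Agent.GAL.FF

variable {F : Type} [Field F] [Algebra Qb F] [IsFF1 Qb F]

/-- (E1).  PROOF.  For `h ≠ 0` with `gal σ • h = h` for all `σ`, the finset `Z h := (divOf Qb h).support`
(`= {y | y.ord h ≠ 0}`) is stable (`SemilinearAut.ord_smul : (g • v).ord (g • f) = v.ord f`).  Every place `y` lies in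
some `Z h`: if `y.ord x < 0` take `h = x`; otherwise `c := val y x`, `p := minpoly ℚ c` (`c` is algebraic over `ℚ`),
`h := aeval x (p.map (algebraMap ℚ Qb))`: `h ≠ 0` (`x` transcendental, `p ≠ 0`), `gal σ • h = h`
(`gal σ •` is a ring automorphism of `F`, `SemilinearAut.smul_algebraMap`, `hbase`, `σ` fixes `ℚ`, `hxr`), and
`0 < y.ord h` because `val y h = aeval c p = 0` (`val` is a ring hom on the functions regular at `y`: `S27/A/Api.lean`
`val_add, val_mul, val_pow, val_algebraMap, val_sum, val_eq_zero_iff`).  `S0 := S.biUnion (fun y => Z (h y))`. -/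
theorem exists_stable_finset (gal : GQ →* SemilinearAut Qb F)
    (hbase : ∀ (σ : GQ) (a : Qb), SemilinearAut.baseAut (gal σ) a = σ a)
    (x : F) (hx : Transcendental Qb x) (hxr : ∀ σ : GQ, gal σ • x = x)
    (S : Finset (Place Qb F)) :
    ∃ S0 : Finset (Place Qb F), S ⊆ S0 ∧ ∀ (σ : GQ), ∀ y ∈ S0, gal σ • y ∈ S0 := by
  sorry

end Fermat.Agent.S19.E
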