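import Fermat.Agent.S19.I.Defs
import Fermat.Agent.GAL.FF.Riemann
import Fermat.Agent.GAL.FF.DegPrincipal

/-!
# S19 / E2 : every class of `Pic⁰` is `[x_1 + ... + x_g₀ - g₀ ∞]`, with `g₀` uniform on finite sets
-/

set_option autoImplicit false

noncomputable section

namespace Fermat.Agent.S19.E

open AlgebraicCurve Fermat.Agent.S24.FF Fermat.Agent.S27 Fermat.Agent.GAL.FF Fermat.Agent.S19.I

variable {F : Type} [Field F] [Algebra Qb F] [IsFF1 Qb F]

/-- an effective divisor is a sum of points.  (induction on the degree / on the support; `deg_eq_one`.) -/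
theorem exists_sumPts_eq (E : Divisor Qb F) (hE : ∀ y, 0 ≤ E y) :
    ∃ (g : ℕ) (x : Fin g → Place Qb F), sumPts x = E := by
  sorry

/-- PROOF. `P = cls D`, `deg D = 0` (`cls_surjective`).  Riemann's inequality (`GAL/FF/Riemann.lean`,
`GAL/FF/RiemannIneq.lean`, `GAL/FF/LSpace.lean`): for `g ≫ 0` there is `f ≠ 0` with `div f + D + g ∞ ≥ 0`.
`E := div f + D + g ∞` is effective of degree `g`, so `E = sumPts x`, `x : Fin g' → Place`, and `g' = g` by
`degree_sumPts`.  `cls (sumPts x - g ∞) = cls (D + div f) = P` (`cls_eq_iff`). -/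
theorem exists_tuple (oo : Place Qb F) (P : Pic0 Qb F) :
    ∃ (g : ℕ) (x : Fin g → Place Qb F), cls (tupDiv x oo) = P := by
  sorry

/-- padding with `∞`: `tupDiv (Fin.snoc x oo) oo = tupDiv x oo`. -/
theorem exists_tuple_of_le (oo : Place Qb F) {P : Pic0 Qb F} {g g' : ℕ} (h : g ≤ g')
    (hx : ∃ x : Fin g → Place Qb F, cls (tupDiv x oo) = P) :
    ∃ x : Fin g' → Place Qb F, cls (tupDiv x oo) = P := by
  sorry

/-- (E2). -/
theorem exists_tuple_uniform (oo : Place Qb F) (T : Set (Pic0 Qb F)) (hT : T.Finite) :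
    ∃ g₀ : ℕ, ∀ P ∈ T, ∃ x : Fin g₀ → Place Qb F, cls (tupDiv x oo) = P := by
  sorry

end Fermat.Agent.S19.E
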